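import Fermat.Agent.S36.R.Model
import Fermat.Agent.S36.R.RegStep

/-!
# S36 / R / Local / Conv : dictionary  `Model` language on `M`  ↔  `Λ = Localization.AtPrime n`

`M` a domain, `n` a maximal ideal.  All proofs are elementwise (`IsLocalization.mk'_surjective`, `IsLocalization.injective`,
`IsLocalization.map_units`, `IsLocalization.AtPrime.isUnit_to_map_iff`).
-/

set_option autoImplicit false

namespace Fermat.Agent.S36.R.Model

section Dvd

variable {M : Type*} [CommRing M] [IsDomain M]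

/-- (L1) divisibility in `Λ` of elements of `M`.
`→`: `p * mk' z s = x` ⟹ `p * z = s * x` in `Λ`, hence in `M` (injectivity: `IsLocalization.injective _ (le_nonZeroDivisors…)`,
`Ideal.primeCompl_le_nonZeroDivisors`).  `←`: `s` is a unit of `Λ` (`IsUnit.dvd_mul_left`). -/
theorem loc_dvd_iff (n : Ideal M) [n.IsPrime] (p x : M) :
    algebraMap M (Localization.AtPrime n) p ∣ algebraMap M (Localization.AtPrime n) x ↔
      ∃ s, s ∉ n ∧ p ∣ s * x := by
  constructor
  · rintro ⟨w, hw⟩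
    obtain ⟨⟨z, s⟩, rfl⟩ := IsLocalization.mk'_surjective n.primeCompl w
    refine ⟨s, s.2, z, ?_⟩
    apply IsLocalization.injective (Localization.AtPrime n) n.primeCompl_le_nonZeroDivisors
    rw [map_mul, map_mul, hw, ← IsLocalization.mk'_spec (Localization.AtPrime n) z s]
    ring
  · rintro ⟨s, hs, z, hz⟩
    have hu : IsUnit (algebraMap M (Localization.AtPrime n) s) :=
      (IsLocalization.AtPrime.isUnit_to_map_iff (Localization.AtPrime n) n s).2 hs
    rw [← hu.dvd_mul_left, ← map_mul, hz, map_mul]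
    exact dvd_mul_right _ _

/-- every element of `Λ` is a unit times an element of `M`. -/
theorem loc_exists_rep (n : Ideal M) [n.IsPrime] (x : Localization.AtPrime n) :
    ∃ (x₀ s : M), s ∉ n ∧ algebraMap M (Localization.AtPrime n) s * x =
      algebraMap M (Localization.AtPrime n) x₀ := by
  obtain ⟨⟨x₀, s⟩, rfl⟩ := IsLocalization.mk'_surjective n.primeCompl x
  exact ⟨x₀, s, s.2, by rw [mul_comm, IsLocalization.mk'_spec]⟩

theorem loc_isUnit_iff (n : Ideal M) [n.IsPrime] (x : M) :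
    IsUnit (algebraMap M (Localization.AtPrime n) x) ↔ x ∉ n :=
  IsLocalization.AtPrime.isUnit_to_map_iff (Localization.AtPrime n) n x

theorem loc_injective (n : Ideal M) [n.IsPrime] :
    Function.Injective (algebraMap M (Localization.AtPrime n)) :=
  IsLocalization.injective (Localization.AtPrime n) n.primeCompl_le_nonZeroDivisors

end Dvd

variable {M R : Type*} [CommRing M] [IsDomain M] [CommRing R] [IsDomain R] {π : M} {ι : Type*}
  (𝓜 : Model M R π ι)

/-- (L2) the vertical primes through a regular point are locally principal.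
`Reg2At.exists_locPrin` with `𝔮 = 𝓜.P c`; `𝓜.P c ≠ n`: otherwise `R ≃ M ⧸ ker (ρ c)` (`RingHom.quotientKerEquivOfSurjective`) is a
field (`Ideal.Quotient.maximal_ideal_iff_isField_quotient`, `MulEquiv.isField`). -/
theorem exists_gen [IsNoetherianRing M] (hR : ¬ IsField R) (n : Ideal M) (hn : n.IsMaximal) (a b : M)
    (hreg : Reg2At n a b) (c : ι) (hc : 𝓜.Thru n c) : ∃ g, LocPrin n (𝓜.P c) g := by
  refine hreg.exists_locPrin hn (𝓜.P c) (𝓜.P_isPrime c) hc fun h => hR ?_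
  have hmax : (RingHom.ker (𝓜.ρ c)).IsMaximal := by
    have : 𝓜.P c = RingHom.ker (𝓜.ρ c) := rfl
    rw [← this, h]
    exact hn
  have hfield : IsField (M ⧸ RingHom.ker (𝓜.ρ c)) :=
    (Ideal.Quotient.maximal_ideal_iff_isField_quotient _).1 hmax
  exact MulEquiv.isField hfield
    (RingHom.quotientKerEquivOfSurjective (𝓜.surj c)).symm.toMulEquiv

/-- (L3) -/
theorem gen_dvd_iff (n : Ideal M) [n.IsPrime] (c : ι) (hc : 𝓜.Thru n c) (g : M)
    (hg : LocPrin n (𝓜.P c) g) (x : M) :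
    algebraMap M (Localization.AtPrime n) g ∣ algebraMap M (Localization.AtPrime n) x ↔
      𝓜.ρ c x = 0 := by
  rw [loc_dvd_iff]
  constructor
  · rintro ⟨s, hs, w, hw⟩
    have h1 : 𝓜.ρ c g = 0 := RingHom.mem_ker.1 hg.1
    have h2 := congrArg (𝓜.ρ c) hw
    rw [map_mul, map_mul, h1, zero_mul] at h2
    have hs' : 𝓜.ρ c s ≠ 0 := fun h => hs (hc (RingHom.mem_ker.2 h))
    exact (mul_eq_zero.1 h2).resolve_left hs'
  · intro hx
    exact hg.2 x (RingHom.mem_ker.2 hx)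

/-- (L4) `g ≠ 0` because `g ∣ s π ≠ 0`; not a unit because `g ∈ 𝔭_c ≤ n`; the prime property via `loc_exists_rep` and (L3). -/
theorem gen_prime (hπ0 : π ≠ 0) (n : Ideal M) [n.IsPrime] (c : ι) (hc : 𝓜.Thru n c) (g : M)
    (hg : LocPrin n (𝓜.P c) g) : Prime (algebraMap M (Localization.AtPrime n) g) := by
  refine ⟨?_, ?_, ?_⟩
  · intro h0
    have hg0 : g = 0 := loc_injective n (by rw [h0, map_zero])
    obtain ⟨s, hs, hdvd⟩ := hg.2 π (RingHom.mem_ker.2 (𝓜.map_pi c))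
    rw [hg0, zero_dvd_iff] at hdvd
    rcases mul_eq_zero.1 hdvd with h | h
    · exact hs (h ▸ n.zero_mem)
    · exact hπ0 h
  · rw [loc_isUnit_iff]
    exact fun h => h (hc hg.1)
  · intro a b hab
    obtain ⟨a₀, sa, hsa, ha⟩ := loc_exists_rep n a
    obtain ⟨b₀, sb, hsb, hb⟩ := loc_exists_rep n b
    have h1 : algebraMap M (Localization.AtPrime n) g ∣
        algebraMap M (Localization.AtPrime n) (a₀ * b₀) := by
      rw [map_mul, ← ha, ← hb]
      refine hab.trans ⟨algebraMap M (Localization.AtPrime n) sa *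
        algebraMap M (Localization.AtPrime n) sb, by ring⟩
    rw [gen_dvd_iff 𝓜 n c hc g hg, map_mul] at h1
    rcases mul_eq_zero.1 h1 with h | h
    · left
      rw [← gen_dvd_iff 𝓜 n c hc g hg, ← ha] at h
      exact (((loc_isUnit_iff n sa).2 hsa).dvd_mul_left).1 h
    · right
      rw [← gen_dvd_iff 𝓜 n c hc g hg, ← hb] at h
      exact (((loc_isUnit_iff n sb).2 hsb).dvd_mul_left).1 h

/-- (L5) saturation in `Λ` (from `Model.exists_dvd_of_thru`, (L1), (L3), `loc_exists_rep`). -/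
theorem loc_sat [Finite ι] (n : Ideal M) [n.IsPrime] (g : ι → M)
    (hg : ∀ c, 𝓜.Thru n c → LocPrin n (𝓜.P c) (g c)) (x : Localization.AtPrime n)
    (h : ∀ c, 𝓜.Thru n c → ∃ t : Localization.AtPrime n,
      ¬ algebraMap M (Localization.AtPrime n) (g c) ∣ t ∧
        algebraMap M (Localization.AtPrime n) π ∣ t * x) :
    algebraMap M (Localization.AtPrime n) π ∣ x := by
  obtain ⟨x₀, s, hs, hx⟩ := loc_exists_rep n x
  rw [← ((loc_isUnit_iff n s).2 hs).dvd_mul_left, hx, loc_dvd_iff]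
  refine 𝓜.exists_dvd_of_thru n inferInstance x₀ fun c hc => ?_
  obtain ⟨t, ht, hdvd⟩ := h c hc
  obtain ⟨t₀, st, hst, ht₀⟩ := loc_exists_rep n t
  have h1 : 𝓜.ρ c t₀ ≠ 0 := by
    intro h0
    rw [← gen_dvd_iff 𝓜 n c hc (g c) (hg c hc), ← ht₀] at h0
    exact ht ((((loc_isUnit_iff n st).2 hst).dvd_mul_left).1 h0)
  have h2 : algebraMap M (Localization.AtPrime n) π ∣
      algebraMap M (Localization.AtPrime n) (t₀ * x₀) := by
    rw [map_mul, ← ht₀, ← hx]
    refine hdvd.trans ⟨algebraMap M (Localization.AtPrime n) st *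
      algebraMap M (Localization.AtPrime n) s, by ring⟩
  obtain ⟨s', hs', hdvd'⟩ := (loc_dvd_iff n π (t₀ * x₀)).1 h2
  refine ⟨s' * t₀, ?_, by rwa [mul_assoc]⟩
  rw [map_mul]
  exact mul_ne_zero (fun h => hs' (hc (RingHom.mem_ker.2 h))) h1

/-- (L6) GLOBALISATION OF DENOMINATORS.  `d ≠ 0` a unit at the components through `n`.  Then `σ / d = d' / b` with `σ ∉ n`, `b` a vertical
unit.
Proof.  For every `c` there are `σ_c ∉ n`, `b_c` with `ρ c b_c ≠ 0`, `d ∣ σ_c * b_c`: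
 `c` through `n`: `σ_c = 1`, `b_c = d`.
 `c` not through `n`: `fin c d`: `d * d' = t * π ^ N`, `ρ c t ≠ 0`; `u ∈ 𝔭_c \ n`; `pow c u`: `π * r = t' * u ^ e`, `ρ c t' ≠ 0`; so
 `u ^ (e N) * (t' ^ N * t) = π ^ N * r ^ N * t = d * (d' r ^ N)`: `σ_c = u ^ (e N)`, `b_c = t' ^ N * t`.
`σ = ∏ σ_c`, `b = ∑ b_c w_c` with `ρ c (w c) ≠ 0`, `ρ c' (w c) = 0` (`c' ≠ c`) as in `oneMod_of_congAt` (R/Main.lean). -/
theorem exists_vunit_dvd [Finite ι] (n : Ideal M) (hn : n.IsPrime) (d : M) (hd0 : d ≠ 0)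
    (hd : ∀ c, 𝓜.Thru n c → 𝓜.ρ c d ≠ 0) : ∃ σ b, σ ∉ n ∧ 𝓜.VUnit b ∧ d ∣ σ * b := by
  classical
  cases nonempty_fintype ι
  have hex : ∀ c, ∃ σ b : M, σ ∉ n ∧ 𝓜.ρ c b ≠ 0 ∧ d ∣ σ * b := by
    intro c
    by_cases hc : 𝓜.Thru n c
    · exact ⟨1, d, fun h1 => hn.ne_top ((Ideal.eq_top_iff_one n).mpr h1), hd c hc,
        by rw [one_mul]⟩
    · obtain ⟨u, hu, hun⟩ := SetLike.not_le_iff_exists.mp hc
      obtain ⟨N, t, ht, hdvd⟩ := 𝓜.fin c d hd0
      obtain ⟨t', ht', hdvd'⟩ := 𝓜.pow c u (RingHom.mem_ker.mp hu)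
      refine ⟨(u ^ 𝓜.e c) ^ N, t' ^ N * t, fun h => hun ?_, ?_, ?_⟩
      · exact hn.mem_of_pow_mem _ (hn.mem_of_pow_mem _ h)
      · rw [map_mul, map_pow]
        exact mul_ne_zero (pow_ne_zero _ ht') ht
      · refine hdvd.trans ?_
        have h1 : (u ^ 𝓜.e c) ^ N * (t' ^ N * t) = t * (t' * u ^ 𝓜.e c) ^ N := by
          rw [mul_pow]; ring
        rw [h1]
        exact mul_dvd_mul_left t (pow_dvd_pow_of_dvd hdvd' N)
  choose σ b hσ hb hdvd using hex
  have hsep : ∀ c c' : ι, ∃ u : M, 𝓜.ρ c u ≠ 0 ∧ (c ≠ c' → 𝓜.ρ c' u = 0) := by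
    intro c c'
    by_cases hcc : c = c'
    · exact ⟨1, by rw [map_one]; exact one_ne_zero, fun h => absurd hcc h⟩
    · obtain ⟨u, hu1, hu2⟩ := 𝓜.sep c c' hcc
      exact ⟨u, hu2, fun _ => hu1⟩
  choose u hu1 hu2 using hsep
  set w : ι → M := fun c => ∏ c', u c c' with hw
  have hw1 : ∀ c, 𝓜.ρ c (w c) ≠ 0 := by
    intro c
    rw [hw]
    simp only [map_prod]
    exact Finset.prod_ne_zero_iff.mpr fun c' _ => hu1 c c'
  have hw2 : ∀ c c', c ≠ c' → 𝓜.ρ c' (w c) = 0 := by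
    intro c c' hcc
    rw [hw]
    simp only [map_prod]
    exact Finset.prod_eq_zero (Finset.mem_univ c') (hu2 c c' hcc)
  refine ⟨∏ c, σ c, ∑ c, b c * w c, ?_, ?_, ?_⟩
  · intro hmem
    obtain ⟨c, -, hc⟩ := (hn.prod_mem_iff).mp hmem
    exact hσ c hc
  · intro c
    rw [map_sum, Finset.sum_eq_single c]
    · rw [map_mul]
      exact mul_ne_zero (hb c) (hw1 c)
    · intro c' _ hne
      rw [map_mul, hw2 c' c hne, mul_zero]
    · intro hc
      exact absurd (Finset.mem_univ c) hc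
  · rw [Finset.mul_sum]
    refine Finset.dvd_sum fun c _ => ?_
    rw [← mul_assoc]
    refine Dvd.dvd.mul_right ((hdvd c).trans ?_) _
    exact mul_dvd_mul_right (Finset.dvd_prod_of_mem σ (Finset.mem_univ c)) _

include 𝓜 in
/-- `π ≠ 0` as soon as there are two components (`pow`: if `π = 0` every `ρ c` is injective; `sep`). -/
theorem pi_ne_zero (c c' : ι) (hcc : c ≠ c') : π ≠ 0 := by
  intro h0
  obtain ⟨u, hu', hu⟩ := 𝓜.sep c c' hcc
  obtain ⟨t, ht, hdvd⟩ := 𝓜.pow c' u hu'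
  have hz : t * u ^ 𝓜.e c' = 0 := by
    obtain ⟨w, hw⟩ := hdvd
    rw [hw, h0, zero_mul]
  rcases mul_eq_zero.1 hz with h | h
  · exact ht (by rw [h, map_zero])
  · exact hu (by rw [eq_zero_of_pow_eq_zero h, map_zero])

end Fermat.Agent.S36.R.Model
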