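import Mathlib

/-!
# S36 / R / Local / Glue : gluing `m`-th roots of a unit modulo finitely many ideals of a local ring   (Mathlib only)

`glue_two`: `γ₁ ^ m ≡ ε mod I₁`, `γ₂ ^ m ≡ ε mod I₂`, `γ₁ ≡ γ₂ mod 𝔪`, `m`, `ε` units  ⟹  `γ₁ - γ₂ ∈ I₁ ⊔ I₂`, so there is `g` with
`g ≡ γ₁ mod I₁`, `g ≡ γ₂ mod I₂`.
Proof: `γ₁ ^ m - γ₂ ^ m = (γ₁ - γ₂) * Σ_{i<m} γ₁ ^ i γ₂ ^ (m-1-i)` (`Commute.mul_geom_sum₂` / `geom_sum₂_mul`), the sum is
`≡ m γ₁ ^ (m-1) mod 𝔪`, a unit (`γ₁` is a unit because `γ₁ ^ m ∈ ε + I₁`, `I₁ ≤ 𝔪`, `m ≠ 0`).  `Submodule.mem_sup`.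

`glue_fin`: `Finset` induction with `I = ⨅ c ∈ s, I c` (or directly: `∃ g, (∀ c ∈ s, g - γ c ∈ I c) ∧ ∀ c, g - γ c ∈ 𝔪`, using
`glue_two` for `(⨅ c ∈ s, I c, g)` and `(I c₀, γ c₀)`; for `s = ∅` the infimum is `⊤`: treat the first step separately or allow
`I₁ = ⊤` in `glue_two` by taking `g = γ₂`).
-/

set_option autoImplicit false

namespace Fermat.Agent.S36.R.Local

open IsLocalRing

/-- in a local ring, an element congruent to a unit modulo the maximal ideal is a unit. -/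
theorem Glue_isUnit_of_sub_mem {Λ : Type*} [CommRing Λ] [IsLocalRing Λ] {x ε : Λ} (hε : IsUnit ε)
    (h : x - ε ∈ maximalIdeal Λ) : IsUnit x := by
  rw [← residue_ne_zero_iff_isUnit] at hε ⊢
  rw [← residue_eq_zero_iff, map_sub, sub_eq_zero] at h
  rwa [h]

theorem glue_two {Λ : Type*} [CommRing Λ] [IsLocalRing Λ] (m : ℕ) (hm : IsUnit (m : Λ)) (ε : Λ)
    (hε : IsUnit ε) (I₁ I₂ : Ideal Λ) (h₁ : I₁ ≠ ⊤) (γ₁ γ₂ : Λ)
    (hγ₁ : γ₁ ^ m - ε ∈ I₁) (hγ₂ : γ₂ ^ m - ε ∈ I₂) (hres : γ₁ - γ₂ ∈ maximalIdeal Λ) :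
    ∃ g, g - γ₁ ∈ I₁ ∧ g - γ₂ ∈ I₂ := by
  have hm0 : m ≠ 0 := by
    rintro rfl
    rw [Nat.cast_zero] at hm
    exact not_isUnit_zero hm
  have hu1 : IsUnit γ₁ :=
    (isUnit_pow_iff hm0).1 (Glue_isUnit_of_sub_mem hε (le_maximalIdeal h₁ hγ₁))
  have hr : residue Λ γ₁ = residue Λ γ₂ := by
    rw [← residue_eq_zero_iff, map_sub, sub_eq_zero] at hres
    exact hres
  have hS : IsUnit (∑ i ∈ Finset.range m, γ₁ ^ i * γ₂ ^ (m - 1 - i)) := by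
    rw [← residue_ne_zero_iff_isUnit, map_sum]
    have h2 : ∀ i ∈ Finset.range m, residue Λ (γ₁ ^ i * γ₂ ^ (m - 1 - i)) =
        residue Λ γ₁ ^ (m - 1) := by
      intro i hi
      rw [map_mul, map_pow, map_pow, ← hr, ← pow_add]
      congr 1
      have := Finset.mem_range.1 hi
      omega
    rw [Finset.sum_congr rfl h2, Finset.sum_const, Finset.card_range, nsmul_eq_mul]
    refine mul_ne_zero ?_ (pow_ne_zero _ ((residue_ne_zero_iff_isUnit _).2 hu1))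
    have := (residue_ne_zero_iff_isUnit _).2 hm
    rwa [map_natCast] at this
  obtain ⟨u, hu⟩ := hS
  have hmem : γ₁ - γ₂ ∈ I₁ ⊔ I₂ := by
    have h3 : γ₁ ^ m - γ₂ ^ m ∈ I₁ ⊔ I₂ := by
      have h4 : γ₁ ^ m - γ₂ ^ m = (γ₁ ^ m - ε) + -(γ₂ ^ m - ε) := by ring
      rw [h4]
      exact Submodule.add_mem_sup hγ₁ (I₂.neg_mem hγ₂)
    rw [← geom_sum₂_mul, ← hu] at h3
    have h5 := (I₁ ⊔ I₂).mul_mem_left (↑u⁻¹ : Λ) h3
    rwa [← mul_assoc, Units.inv_mul, one_mul] at h5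
  obtain ⟨x₁, hx₁, x₂, hx₂, hx⟩ := Submodule.mem_sup.1 hmem
  refine ⟨γ₁ - x₁, ?_, ?_⟩
  · have : γ₁ - x₁ - γ₁ = -x₁ := by ring
    rw [this]
    exact I₁.neg_mem hx₁
  · have : γ₁ - x₁ - γ₂ = x₂ := by linear_combination -hx
    rw [this]
    exact hx₂

theorem glue_fin {Λ ι : Type*} [CommRing Λ] [IsLocalRing Λ] [Finite ι] (m : ℕ) (hm : IsUnit (m : Λ))
    (ε : Λ) (hε : IsUnit ε) (I : ι → Ideal Λ) (hI : ∀ c, I c ≠ ⊤) (γ : ι → Λ)
    (hγ : ∀ c, γ c ^ m - ε ∈ I c) (hres : ∀ c c', γ c - γ c' ∈ maximalIdeal Λ) :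
    ∃ g, ∀ c, g - γ c ∈ I c := by
  classical
  cases nonempty_fintype ι
  suffices H : ∀ s : Finset ι, ∃ g, ∀ c ∈ s, g - γ c ∈ I c by
    obtain ⟨g, hg⟩ := H Finset.univ
    exact ⟨g, fun c => hg c (Finset.mem_univ c)⟩
  intro s
  induction s using Finset.induction_on with
  | empty => exact ⟨0, fun c hc => absurd hc (Finset.notMem_empty c)⟩
  | insert c₀ s hc₀ ih =>
    obtain ⟨g, hg⟩ := ih
    rcases s.eq_empty_or_nonempty with rfl | ⟨c₁, hc₁⟩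
    · refine ⟨γ c₀, fun c hc => ?_⟩
      rw [Finset.mem_insert] at hc
      rcases hc with rfl | hc
      · rw [sub_self]; exact (I c).zero_mem
      · exact absurd hc (Finset.notMem_empty c)
    have hJ : s.inf I ≠ ⊤ := by
      intro h
      have h1 : s.inf I ≤ I c₁ := Finset.inf_le hc₁
      rw [h, top_le_iff] at h1
      exact hI c₁ h1
    have hgm : g ^ m - ε ∈ s.inf I := by
      rw [Submodule.mem_finsetInf]
      intro c hc
      have h1 : g ^ m - γ c ^ m ∈ I c := by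
        obtain ⟨z, hz⟩ := sub_dvd_pow_sub_pow g (γ c) m
        rw [hz]
        exact (I c).mul_mem_right _ (hg c hc)
      have h2 : g ^ m - ε = (g ^ m - γ c ^ m) + (γ c ^ m - ε) := by ring
      rw [h2]
      exact (I c).add_mem h1 (hγ c)
    have hgres : g - γ c₀ ∈ maximalIdeal Λ := by
      have h2 : g - γ c₀ = (g - γ c₁) + (γ c₁ - γ c₀) := by ring
      rw [h2]
      exact (maximalIdeal Λ).add_mem (le_maximalIdeal (hI c₁) (hg c₁ hc₁)) (hres c₁ c₀)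
    obtain ⟨g', hg'1, hg'2⟩ := glue_two m hm ε hε (s.inf I) (I c₀) hJ g (γ c₀) hgm (hγ c₀) hgres
    refine ⟨g', fun c hc => ?_⟩
    rw [Finset.mem_insert] at hc
    rcases hc with rfl | hc
    · exact hg'2
    · have h2 : g' - γ c = (g' - g) + (g - γ c) := by ring
      rw [h2]
      exact (I c).add_mem ((Submodule.mem_finsetInf.1 hg'1) c hc) (hg c hc)

end Fermat.Agent.S36.R.Local
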