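import Fermat.Agent.S36.R.Local.Newton
import Fermat.Agent.S36.R.Local.Glue

/-!
# S36 / R / Local / Main : the LOCAL LEMMA   (Mathlib only)

`Λ` a local domain (`WfDvdMonoid`, e.g. a UFD or noetherian), `π ≠ 0`, `a c` (`c : ι`, finite, nonempty) prime elements dividing `π`
such that `Λ/π ↪ ∏_c (Λ/π)_{(a c)}` (`hsat`).  `y = α / β`, `a c ∤ β`, `y ^ m ≡ ε mod π` (`ε`, `m` units), and the reductions of `y`
modulo the `a c` are `γ c`, all with the same residue in the residue field.  Then `y ≡ g mod π` for a unit `g` of `Λ`.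

Proof.  For each `c`: `π = a c ^ k c * π' c`, `a c ∤ π' c` (`WfDvdMonoid.max_power_factor`), `k c ≠ 0`.
`newton` (with `a c ^ k c ∣ π ∣ α ^ m - ε β ^ m`): `γ' c`, `a c ^ k c ∣ α - γ' c β`, `a c ∣ γ' c - γ c`.
`a c ^ k c ∣ γ' c ^ m - ε`: `(γ' ^ m - ε) β ^ m = ((γ' β) ^ m - α ^ m) + (α ^ m - ε β ^ m)`, `sub_dvd_pow_sub_pow`,
`Prime.pow_dvd_of_dvd_mul_right`.
`glue_fin` with `I c = span {a c ^ k c}` (`≠ ⊤`: `a c ^ k c` is not a unit), `γ' c - γ' c' ∈ 𝔪` (`a c ∈ 𝔪`): `g`.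
`a c ^ k c ∣ α - g β`, so `π ∣ π' c * (α - g β)`; `hsat`.
`IsUnit g`: pick `c`; `a c ∣ α - g β`, `a c ∣ α ^ m - ε β ^ m` ⟹ `a c ∣ (g ^ m - ε) β ^ m` ⟹ `a c ∣ g ^ m - ε`; `g ^ m = ε + a c z` is a unit.
-/

set_option autoImplicit false

namespace Fermat.Agent.S36.R.Local

open IsLocalRing

theorem local_main {Λ ι : Type*} [CommRing Λ] [IsDomain Λ] [IsLocalRing Λ] [WfDvdMonoid Λ] [Finite ι]
    [Nonempty ι] (π : Λ) (hπ : π ≠ 0) (a : ι → Λ) (ha : ∀ c, Prime (a c)) (hdvd : ∀ c, a c ∣ π)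
    (hsat : ∀ x, (∀ c, ∃ t, ¬ a c ∣ t ∧ π ∣ t * x) → π ∣ x)
    (m : ℕ) (hm : IsUnit (m : Λ)) (ε : Λ) (hε : IsUnit ε) (α β : Λ) (hβ : ∀ c, ¬ a c ∣ β)
    (h : π ∣ α ^ m - ε * β ^ m) (γ : ι → Λ) (hγ : ∀ c, a c ∣ α - γ c * β)
    (hres : ∀ c c', γ c - γ c' ∈ maximalIdeal Λ) : ∃ g, IsUnit g ∧ π ∣ α - g * β := by
  classical
  have hm0 : m ≠ 0 := by
    rintro rfl
    rw [Nat.cast_zero] at hm
    exact not_isUnit_zero hm
  have hfac : ∀ c, ∃ (n : ℕ) (π' : Λ), ¬ a c ∣ π' ∧ π = a c ^ n * π' := fun c =>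
    WfDvdMonoid.max_power_factor hπ (ha c).irreducible
  choose k π' hπ' hπeq using hfac
  have hk0 : ∀ c, k c ≠ 0 := by
    intro c h0
    have h1 := hπeq c
    rw [h0, pow_zero, one_mul] at h1
    exact hπ' c (h1 ▸ hdvd c)
  have hpk : ∀ c, a c ^ k c ∣ π := fun c => ⟨π' c, hπeq c⟩
  have hnewt : ∀ c, ∃ γ', a c ^ k c ∣ α - γ' * β ∧ a c ∣ γ' - γ c := fun c =>
    newton (a c) (ha c) m hm ε hε α β (γ c) (hβ c) (hγ c) (k c) ((hpk c).trans h)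
  choose γ' hγ'1 hγ'2 using hnewt
  have hβm : ∀ c, ¬ a c ∣ β ^ m := fun c hd => hβ c ((ha c).dvd_of_dvd_pow hd)
  have hroot : ∀ c (j : ℕ) (g : Λ), a c ^ j ∣ α - g * β → a c ^ j ∣ α ^ m - ε * β ^ m →
      a c ^ j ∣ g ^ m - ε := by
    intro c j g h1 h2
    refine (ha c).pow_dvd_of_dvd_mul_right j (hβm c) ?_
    have h3 : (g ^ m - ε) * β ^ m = (α ^ m - ε * β ^ m) - (α ^ m - (g * β) ^ m) := by ring
    rw [h3]
    exact dvd_sub h2 (h1.trans (sub_dvd_pow_sub_pow _ _ _))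
  have hamax : ∀ c, a c ∈ maximalIdeal Λ := fun c => (mem_maximalIdeal _).2 (ha c).not_isUnit
  obtain ⟨g, hg⟩ := glue_fin m hm ε hε (fun c => Ideal.span {a c ^ k c})
    (fun c => by
      rw [Ne, Ideal.span_singleton_eq_top]
      exact fun hu => (ha c).not_isUnit ((isUnit_pow_iff (hk0 c)).1 hu)) γ'
    (fun c => Ideal.mem_span_singleton.2 (hroot c (k c) (γ' c) (hγ'1 c) ((hpk c).trans h)))
    (fun c c' => by
      have h2 : γ' c - γ' c' = (γ' c - γ c) + (γ c - γ c') - (γ' c' - γ c') := by ring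
      rw [h2]
      exact sub_mem (add_mem (Ideal.mem_of_dvd _ (hγ'2 c) (hamax c)) (hres c c'))
        (Ideal.mem_of_dvd _ (hγ'2 c') (hamax c')))
  have hgd : ∀ c, a c ^ k c ∣ α - g * β := by
    intro c
    have h1 := Ideal.mem_span_singleton.1 (hg c)
    have h2 : α - g * β = (α - γ' c * β) - (g - γ' c) * β := by ring
    rw [h2]
    exact dvd_sub (hγ'1 c) (h1.mul_right _)
  refine ⟨g, ?_, hsat _ fun c => ⟨π' c, hπ' c, ?_⟩⟩
  · obtain ⟨c⟩ := ‹Nonempty ι›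
    have h1 : a c ^ 1 ∣ g ^ m - ε := hroot c 1 g
      (by rw [pow_one]; exact (dvd_pow_self _ (hk0 c)).trans (hgd c))
      (by rw [pow_one]; exact (hdvd c).trans h)
    rw [pow_one] at h1
    exact (isUnit_pow_iff hm0).1 (Glue_isUnit_of_sub_mem hε (Ideal.mem_of_dvd _ h1 (hamax c)))
  · obtain ⟨z, hz⟩ := hgd c
    refine ⟨z, ?_⟩
    rw [hz]
    conv_rhs => rw [hπeq c]
    ring

end Fermat.Agent.S36.R.Local
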