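import Mathlib

/-!
# S36 / R / Local / Ufd : two Mathlib-only lemmas

* `ufd_pow`: in a UFD, if `a₀ / b₀` is "a unit times an `m`-th power at every prime element" then `a₀ / b₀ = ε (d / c) ^ m`.
  Proof: `X = a₀ * b₀ ^ (m - 1)`.  For a prime `p`: `c ^ m * X * b = a * (d * b₀) ^ m`, so
  `m * count c + count X + 0 = 0 + m * count (d b₀)`, `m ∣ count X`.  `Associates.is_pow_of_dvd_count` (or `emultiplicity` /
  `UniqueFactorizationMonoid.induction_on_prime`): `X = ε z ^ m`.  Then `b₀ ^ m * a₀ = X * b₀ = ε * z ^ m * b₀`: `c = b₀`, `d = z`.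
* `ic_dedekind`: `R` Dedekind, `z` prime, `x ^ m * v = u * y ^ m`, `u v ∉ z` ⟹ `x / y` is a unit at `z`.
  Proof: in `O = Localization.AtPrime z` (integrally closed: it is a Dedekind domain / `IsLocalization.isIntegrallyClosed`-type
  instance): `y ^ m ∣ x ^ m`, `IsIntegrallyClosed.pow_dvd_pow_iff`, `x = w y`, `w ^ m = u / v` a unit, `w = g / s`.
-/

set_option autoImplicit false

namespace Fermat.Agent.S36.R.Local

theorem ufd_pow {O : Type*} [CommRing O] [IsDomain O] [UniqueFactorizationMonoid O] (m : ℕ) (hm : m ≠ 0)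
    (a₀ b₀ : O) (ha₀ : a₀ ≠ 0) (hb₀ : b₀ ≠ 0)
    (h : ∀ p : O, Prime p → ∃ c d a b : O, c ≠ 0 ∧ d ≠ 0 ∧ ¬ p ∣ a ∧ ¬ p ∣ b ∧
      c ^ m * a₀ * b = a * d ^ m * b₀) :
    ∃ c d ε : O, c ≠ 0 ∧ d ≠ 0 ∧ IsUnit ε ∧ c ^ m * a₀ = ε * d ^ m * b₀ := by
  classical
  obtain ⟨k, rfl⟩ : ∃ k, m = k + 1 := ⟨m - 1, by omega⟩
  set X : O := a₀ * b₀ ^ k with hX
  have hX0 : X ≠ 0 := mul_ne_zero ha₀ (pow_ne_zero _ hb₀)
  have key : ∀ v : Associates O, Irreducible v → (k + 1) ∣ Associates.count v (Associates.mk X).factors := by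
    intro v hv
    obtain ⟨p, rfl⟩ := Associates.mk_surjective v
    have hp : Irreducible p := Associates.irreducible_mk.mp hv
    obtain ⟨c, d, a, b, hc, hd, hpa, hpb, e⟩ := h p hp.prime
    have ha : a ≠ 0 := fun h0 => hpa (h0 ▸ dvd_zero p)
    have hb : b ≠ 0 := fun h0 => hpb (h0 ▸ dvd_zero p)
    have e2 : c ^ (k + 1) * X * b = a * (d * b₀) ^ (k + 1) := by
      have : c ^ (k + 1) * X * b = (c ^ (k + 1) * a₀ * b) * b₀ ^ k := by rw [hX]; ring
      rw [this, e]; ring
    have e3 : Associates.mk c ^ (k + 1) * Associates.mk X * Associates.mk b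
        = Associates.mk a * Associates.mk (d * b₀) ^ (k + 1) := by
      rw [← Associates.mk_pow, ← Associates.mk_pow, Associates.mk_mul_mk, Associates.mk_mul_mk,
        Associates.mk_mul_mk, e2]
    have hc' : Associates.mk c ≠ 0 := Associates.mk_ne_zero.mpr hc
    have hX' : Associates.mk X ≠ 0 := Associates.mk_ne_zero.mpr hX0
    have ha' : Associates.mk a ≠ 0 := Associates.mk_ne_zero.mpr ha
    have hb' : Associates.mk b ≠ 0 := Associates.mk_ne_zero.mpr hb
    have hdb' : Associates.mk (d * b₀) ≠ 0 := Associates.mk_ne_zero.mpr (mul_ne_zero hd hb₀)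
    have ca : Associates.count (Associates.mk p) (Associates.mk a).factors = 0 := by
      by_contra hne
      exact hpa ((Associates.count_ne_zero_iff_dvd ha hp).mp hne)
    have cb : Associates.count (Associates.mk p) (Associates.mk b).factors = 0 := by
      by_contra hne
      exact hpb ((Associates.count_ne_zero_iff_dvd hb hp).mp hne)
    have e4 := congrArg (fun t => Associates.count (Associates.mk p) t.factors) e3
    rw [Associates.count_mul (mul_ne_zero (pow_ne_zero _ hc') hX') hb' hv,
      Associates.count_mul (pow_ne_zero _ hc') hX' hv, Associates.count_pow hc' hv,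
      Associates.count_mul ha' (pow_ne_zero _ hdb') hv, Associates.count_pow hdb' hv, ca, cb] at e4
    have e5 : (k + 1) ∣ (k + 1) * Associates.count (Associates.mk p) (Associates.mk c).factors
        + Associates.count (Associates.mk p) (Associates.mk X).factors := by
      have : (k + 1) * Associates.count (Associates.mk p) (Associates.mk c).factors
        + Associates.count (Associates.mk p) (Associates.mk X).factors
          = (k + 1) * Associates.count (Associates.mk p) (Associates.mk (d * b₀)).factors := by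
        omega
      rw [this]; exact dvd_mul_right _ _
    exact (Nat.dvd_add_right (dvd_mul_right _ _)).mp e5
  obtain ⟨w, hw⟩ := Associates.is_pow_of_dvd_count (Associates.mk_ne_zero.mpr hX0) key
  obtain ⟨z, rfl⟩ := Associates.mk_surjective w
  rw [← Associates.mk_pow, Associates.mk_eq_mk_iff_associated] at hw
  obtain ⟨ε, hε⟩ := hw.symm
  have hz : z ≠ 0 := by
    rintro rfl
    rw [zero_pow (Nat.succ_ne_zero k), zero_mul] at hε
    exact hX0 hε.symm
  refine ⟨b₀, z, ε, hb₀, hz, ε.isUnit, ?_⟩
  have : b₀ ^ (k + 1) * a₀ = X * b₀ := by rw [hX]; ring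
  rw [this, ← hε]; ring

theorem ic_dedekind {R : Type*} [CommRing R] [IsDedekindDomain R] (z : Ideal R) (hz : z.IsPrime) (m : ℕ)
    (hm : m ≠ 0) (x y u v : R) (hy : y ≠ 0) (hu : u ∉ z) (hv : v ∉ z) (h : x ^ m * v = u * y ^ m) :
    ∃ s g, s ∉ z ∧ g ∉ z ∧ s * x = g * y := by
  classical
  have := hz
  let O := Localization.AtPrime z
  have hinj : Function.Injective (algebraMap R O) :=
    IsLocalization.injective O z.primeCompl_le_nonZeroDivisors
  have hDed : IsDedekindDomain O :=
    IsLocalization.isDedekindDomain R z.primeCompl_le_nonZeroDivisors O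
  have : IsIntegrallyClosed O := inferInstance
  have hU : IsUnit (algebraMap R O u) := IsLocalization.map_units O (⟨u, hu⟩ : z.primeCompl)
  have hV : IsUnit (algebraMap R O v) := IsLocalization.map_units O (⟨v, hv⟩ : z.primeCompl)
  have hE : algebraMap R O x ^ m * algebraMap R O v = algebraMap R O u * algebraMap R O y ^ m := by
    rw [← map_pow, ← map_pow, ← map_mul, ← map_mul, h]
  have hY : algebraMap R O y ≠ 0 := fun h0 => hy (hinj (by rw [h0, map_zero]))
  have hd : algebraMap R O y ^ m ∣ algebraMap R O x ^ m := by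
    have : algebraMap R O y ^ m ∣ algebraMap R O x ^ m * algebraMap R O v := by
      rw [hE]; exact dvd_mul_left _ _
    exact (hV.dvd_mul_right).mp this
  obtain ⟨w, hw⟩ := (IsIntegrallyClosed.pow_dvd_pow_iff hm).mp hd
  have hwU : IsUnit w := by
    have e1 : algebraMap R O y ^ m * (w ^ m * algebraMap R O v) = algebraMap R O y ^ m * algebraMap R O u := by
      have : algebraMap R O y ^ m * (w ^ m * algebraMap R O v)
          = (algebraMap R O y * w) ^ m * algebraMap R O v := by ring
      rw [this, ← hw, hE]; ring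
    have e2 := mul_left_cancel₀ (pow_ne_zero m hY) e1
    have : IsUnit (w ^ m) := isUnit_of_mul_isUnit_left (e2 ▸ hU)
    exact (isUnit_pow_iff hm).mp this
  obtain ⟨⟨g, s⟩, hgs⟩ := IsLocalization.surj z.primeCompl w
  simp only at hgs
  have hsU : IsUnit (algebraMap R O (s : R)) := IsLocalization.map_units O s
  have hg : g ∉ z := by
    have hgU : IsUnit (algebraMap R O g) := hgs ▸ hwU.mul hsU
    intro hgz
    exact (IsLocalization.AtPrime.isUnit_to_map_iff O z g).mp hgU hgz
  refine ⟨s, g, s.2, hg, hinj ?_⟩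
  rw [map_mul, map_mul, hw, ← hgs]; ring

end Fermat.Agent.S36.R.Local
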