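import Mathlib

/-!
# S36 / R / Local / Newton : Newton iteration along a prime element of a local domain   (Mathlib only)

`newton`: `Λ` a local domain, `a` a prime element, `m` and `ε` units, `a ∤ β`, `a ^ k ∣ α ^ m - ε β ^ m`, `a ∣ α - γ₀ β`.
Then there is `γ ≡ γ₀ mod a` with `a ^ k ∣ α - γ β`.

Proof.  `k = 0`: `γ = γ₀`.  Otherwise show by induction on `j`, `1 ≤ j ≤ k`: `∃ γ, a ^ j ∣ α - γ β ∧ a ∣ γ - γ₀`.  `j = 1`: `γ₀`.
Step `j → j + 1 ≤ k`:  `α = γ β + a ^ j r`.  Binomial expansion (`add_pow_two`-like: `(x + y) ^ m = x ^ m + m x ^ (m-1) y + y ^ 2 z`,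
`Polynomial.binomExpansion` / `Commute.add_pow` / `add_pow_le_pow_mul_pow_of_sq_le_sq`-free: an easy induction on `m` gives
`∃ z, (x + y) ^ m = x ^ m + m * x ^ (m - 1) * y + y ^ 2 * z`):
`α ^ m - ε β ^ m = (γ ^ m - ε) β ^ m + m γ ^ (m-1) β ^ (m-1) a ^ j r + a ^ (2 j) z`.
So `a ^ j ∣ (γ ^ m - ε) β ^ m`, hence `a ^ j ∣ γ ^ m - ε = a ^ j κ` (`Prime.pow_dvd_of_dvd_mul_right`, `a ∤ β ^ m`).
Dividing by `a ^ j`: `a ∣ β ^ (m-1) (κ β + m γ ^ (m-1) r)`, so `a ∣ κ β + m γ ^ (m-1) r`.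
`γ` is a unit (`γ ^ m = ε + a ^ j κ`, `j ≥ 1`, `a` is a non-unit of the local ring, `m ≠ 0` because `(m : Λ)` is a unit).
`ω = (m γ ^ (m-1))⁻¹`, `γ' = γ - a ^ j ω κ`:  `α - γ' β = a ^ j (r + ω κ β) = a ^ j ω (m γ ^ (m-1) r + κ β)`.
-/

set_option autoImplicit false

namespace Fermat.Agent.S36.R.Local

theorem newton {Λ : Type*} [CommRing Λ] [IsDomain Λ] [IsLocalRing Λ] (a : Λ) (ha : Prime a) (m : ℕ)
    (hm : IsUnit (m : Λ)) (ε : Λ) (hε : IsUnit ε) (α β γ₀ : Λ) (hβ : ¬ a ∣ β) (h0 : a ∣ α - γ₀ * β)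
    (k : ℕ) (hk : a ^ k ∣ α ^ m - ε * β ^ m) : ∃ γ, a ^ k ∣ α - γ * β ∧ a ∣ γ - γ₀ := by
  have ha0 : a ≠ 0 := ha.ne_zero
  have hm0 : m ≠ 0 := by
    rintro rfl
    rw [Nat.cast_zero] at hm
    exact not_isUnit_zero hm
  obtain ⟨n, rfl⟩ : ∃ n, m = n + 1 := ⟨m - 1, by omega⟩
  rcases Nat.eq_zero_or_pos k with rfl | hkpos
  · exact ⟨γ₀, by simp, by simp⟩
  have key : ∀ j, 1 ≤ j → j ≤ k → ∃ γ, a ^ j ∣ α - γ * β ∧ a ∣ γ - γ₀ := by
    intro j hj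
    induction j, hj using Nat.le_induction with
    | base => intro _; exact ⟨γ₀, by rwa [pow_one], by simp⟩
    | succ j hj ih =>
      intro hjk
      obtain ⟨γ, ⟨r, hr⟩, hγ⟩ := ih (by omega)
      have hα : α = γ * β + a ^ j * r := by rw [← hr]; ring
      obtain ⟨z, hz⟩ := Polynomial.powAddExpansion (γ * β) (a ^ j * r) (n + 1)
      rw [← hα, Nat.add_sub_cancel] at hz
      obtain ⟨t, ht⟩ : a ^ (j + 1) ∣ α ^ (n + 1) - ε * β ^ (n + 1) :=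
        (pow_dvd_pow a hjk).trans hk
      have h1 : (γ ^ (n + 1) - ε) * β ^ (n + 1)
          = a ^ j * (a * t - ((n + 1 : ℕ) : Λ) * (γ * β) ^ n * r - z * a ^ j * r ^ 2) := by
        have : (γ ^ (n + 1) - ε) * β ^ (n + 1)
            = (α ^ (n + 1) - ε * β ^ (n + 1)) - (α ^ (n + 1) - (γ * β) ^ (n + 1)) := by ring
        rw [this, ht, hz]
        ring
      have hβpow : ∀ i : ℕ, ¬ a ∣ β ^ i := fun i h => hβ (ha.dvd_of_dvd_pow h)
      obtain ⟨κ, hκ⟩ : a ^ j ∣ γ ^ (n + 1) - ε :=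
        ha.pow_dvd_of_dvd_mul_right j (hβpow _) ⟨_, h1⟩
      rw [hκ, mul_assoc] at h1
      have h2 := mul_left_cancel₀ (pow_ne_zero j ha0) h1
      obtain ⟨j', rfl⟩ : ∃ j', j = j' + 1 := ⟨j - 1, by omega⟩
      have h3 : a ∣ β ^ n * (κ * β + ((n + 1 : ℕ) : Λ) * γ ^ n * r) := by
        refine ⟨t - z * a ^ j' * r ^ 2, ?_⟩
        have : β ^ n * (κ * β + ((n + 1 : ℕ) : Λ) * γ ^ n * r)
            = κ * β ^ (n + 1) + ((n + 1 : ℕ) : Λ) * (γ * β) ^ n * r := by ring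
        rw [this, h2]
        ring
      obtain ⟨s, hs⟩ : a ∣ κ * β + ((n + 1 : ℕ) : Λ) * γ ^ n * r :=
        (ha.dvd_or_dvd h3).resolve_left (hβpow n)
      have hγu : IsUnit γ := by
        have h4 : IsUnit (γ ^ (n + 1) + -(a ^ (j' + 1) * κ)) := by
          have : γ ^ (n + 1) + -(a ^ (j' + 1) * κ) = ε := by rw [← hκ]; ring
          rw [this]; exact hε
        rcases IsLocalRing.isUnit_or_isUnit_of_isUnit_add h4 with h5 | h5
        · exact (isUnit_pow_iff (Nat.succ_ne_zero n)).mp h5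
        · exfalso
          apply ha.not_isUnit
          refine isUnit_of_dvd_unit ?_ h5
          exact ⟨-(a ^ j' * κ), by ring⟩
      obtain ⟨ω, hω⟩ := (hm.mul (hγu.pow n)).exists_left_inv
      refine ⟨γ - a ^ (j' + 1) * ω * κ, ⟨ω * s, ?_⟩, ?_⟩
      · have : α - (γ - a ^ (j' + 1) * ω * κ) * β
            = a ^ (j' + 1) * ((ω * (((n + 1 : ℕ) : Λ) * γ ^ n)) * r + ω * κ * β) := by
          rw [hω, hα]; ring
        rw [this]
        have h6 : (ω * (((n + 1 : ℕ) : Λ) * γ ^ n)) * r + ω * κ * β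
            = ω * (κ * β + ((n + 1 : ℕ) : Λ) * γ ^ n * r) := by ring
        rw [h6, hs]
        ring
      · have : γ - a ^ (j' + 1) * ω * κ - γ₀ = (γ - γ₀) - a * (a ^ j' * ω * κ) := by ring
        rw [this]
        exact dvd_sub hγ (Dvd.intro _ rfl)
  exact key k hkpos le_rfl

end Fermat.Agent.S36.R.Local
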